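import Mathlib
import Fermat.Prelude.Def_AutomorphicForm_HeckeEigensystem

/-!
# Row LT, tower T7, leaf T7.L2.3.4 `SD534.BCUnitC`: the algebraic core (helper936)

OFF-MAIN.  Mathlib + the definition of `AutomorphicForm.satakePow` (Prelude) only.

v1.1 (row-lead helper17, 17:20Z; proofs only, no statement changed): `satakePow` is never
unfolded (`satakePow_zero`, `satakePow_one`, `satakePow_add_two` of the Prelude are used), so
this module realises no `satakePow.eq_def` (the copy realised here collided with the one of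
`T7/H682/Degen.lean` in the grader's kernel checker).

For `a b : ℂ` with `|b| = 1`, `conj a = a conj b`, `|a| √q ≤ q + 1`, `q ≥ 1` and every `f`:

* `conj_satakePow936` : `conj P_f = P_f (conj b)^f`, `P_f = satakePow f a b`;
* `norm_satakePow_le936` : `|P_f| √(q^f) ≤ q^f + 1`.

Route: `a = α + β`, `b = α β`, `P_f = α^f + β^f`; the hypotheses force `|α|, |β| ≤ √q`
(`|α| = 1`, or `β = α / |α|²` and `|a| = |α| + 1/|α|`).
-/

set_option autoImplicit false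

open AutomorphicForm
open scoped ComplexConjugate

noncomputable section

namespace Fermat.Agent.LT.T7.H936

/-- Power sums: `satakePow f (α + β) (α β) = α^f + β^f`. -/
theorem satakePow_roots936 (α β : ℂ) : ∀ f : ℕ, satakePow f (α + β) (α * β) = α ^ f + β ^ f
  | 0 => by rw [satakePow_zero]; norm_num
  | 1 => by rw [satakePow_one, pow_one, pow_one]
  | (n + 2) => by
    rw [satakePow_add_two, satakePow_roots936 α β (n + 1), satakePow_roots936 α β n]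
    ring

/-- Every pair `(a, b)` of complex numbers is `(α + β, α β)`. -/
theorem exists_roots936 (a b : ℂ) : ∃ α β : ℂ, a = α + β ∧ b = α * β := by
  obtain ⟨s, hs⟩ := IsAlgClosed.exists_pow_nat_eq (a ^ 2 - 4 * b) (n := 2) (by norm_num)
  refine ⟨(a + s) / 2, (a - s) / 2, by ring, ?_⟩
  have : (a + s) / 2 * ((a - s) / 2) = (a ^ 2 - s ^ 2) / 4 := by ring
  rw [this, hs]
  ring

/-- `conj P_f = P_f (conj b)^f`. -/
theorem conj_satakePow936 {a b : ℂ} (hb : ‖b‖ = 1) (ha : conj a = a * conj b) :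
    ∀ f : ℕ, conj (satakePow f a b) = satakePow f a b * conj b ^ f
  | 0 => by
    show conj (2 : ℂ) = 2 * conj b ^ 0
    rw [pow_zero, mul_one]
    exact map_ofNat (starRingEnd ℂ) 2
  | 1 => by rw [satakePow_one, pow_one]; exact ha
  | (n + 2) => by
    have hbb : b * conj b = 1 := by
      rw [Complex.mul_conj, Complex.normSq_eq_norm_sq, hb]
      norm_num
    rw [satakePow_add_two, map_sub, map_mul, map_mul, conj_satakePow936 hb ha (n + 1),
      conj_satakePow936 hb ha n, ha]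
    linear_combination (satakePow n a b * conj b ^ (n + 1)) * hbb

/-- The key estimate on one root. -/
theorem norm_root_le936 {α β : ℂ} {s : ℝ} (hs : 1 ≤ s) (hb : ‖α * β‖ = 1)
    (ha : conj (α + β) = (α + β) * conj (α * β)) (hq : ‖α + β‖ * s ≤ s ^ 2 + 1) :
    ‖α‖ ≤ s := by
  have hαβ : ‖α‖ * ‖β‖ = 1 := by rw [← norm_mul]; exact hb
  have hα0 : 0 < ‖α‖ := by
    rcases (norm_nonneg α).lt_or_eq with h | h
    · exact h
    · rw [← h, zero_mul] at hαβ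
      exact absurd hαβ zero_ne_one
  rcases le_or_gt ‖α‖ 1 with hx | hx
  · exact hx.trans hs
  -- `β = α / |α|²`
  have hA : conj α * α = (‖α‖ : ℂ) ^ 2 := Complex.conj_mul' α
  have hB : conj β * β = (‖β‖ : ℂ) ^ 2 := Complex.conj_mul' β
  have hAB : (‖α‖ : ℂ) ^ 2 * (‖β‖ : ℂ) ^ 2 = 1 := by
    rw [← mul_pow, ← Complex.ofReal_mul, hαβ]
    norm_num
  have h1 : (‖α‖ : ℂ) ^ 2 * β + (‖β‖ : ℂ) ^ 2 * α = α + β := by
    rw [map_add, map_mul] at ha
    have h2 : (conj α + conj β) * (α * β) = (α + β) * (conj α * conj β) * (α * β) := by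
      rw [ha]
    have h3 : (conj α + conj β) * (α * β) = (‖α‖ : ℂ) ^ 2 * β + (‖β‖ : ℂ) ^ 2 * α := by
      rw [← hA, ← hB]
      ring
    have h4 : (α + β) * (conj α * conj β) * (α * β) = α + β := by
      have : (α + β) * (conj α * conj β) * (α * β) = (α + β) * ((conj α * α) * (conj β * β)) := by
        ring
      rw [this, hA, hB, hAB, mul_one]
    rw [← h3, h2, h4]
  have hx2 : (1 : ℝ) < ‖α‖ ^ 2 := by nlinarith
  have hne : (‖α‖ : ℂ) ^ 2 - 1 ≠ 0 := by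
    rw [sub_ne_zero]
    intro h
    have : (‖α‖ ^ 2 : ℝ) = 1 := by exact_mod_cast h
    linarith
  have h5 : (‖α‖ : ℂ) ^ 2 * β = α := by
    have h6 : ((‖α‖ : ℂ) ^ 2 - 1) * ((‖α‖ : ℂ) ^ 2 * β - α) = 0 := by
      linear_combination (‖α‖ : ℂ) ^ 2 * h1 - α * hAB
    rcases mul_eq_zero.mp h6 with h | h
    · exact absurd h hne
    · exact sub_eq_zero.mp h
  -- `|α + β| = |α| + 1 / |α|`
  have hβ : ‖β‖ = ‖α‖⁻¹ := eq_inv_of_mul_eq_one_right hαβ
  have h7 : ‖α + β‖ = ‖α‖ + ‖β‖ := by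
    have h8 : α + β = ((‖α‖ ^ 2 + 1 : ℝ) : ℂ) * β := by
      push_cast
      linear_combination -h5
    have h9 : ‖α + β‖ = (‖α‖ ^ 2 + 1) * ‖β‖ := by
      rw [h8, norm_mul, Complex.norm_real, Real.norm_of_nonneg (by positivity)]
    have h10 : ‖α‖ ^ 2 * ‖β‖ = ‖α‖ := by
      rw [hβ]
      field_simp
    rw [h9]
    linarith [h10, add_mul (‖α‖ ^ 2) 1 ‖β‖]
  rw [h7, hβ] at hq
  -- `(x + 1/x) s ≤ s² + 1`, `x > 1`, `s ≥ 1`  ⟹  `x ≤ s`
  by_contra hcon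
  have hcon' : s < ‖α‖ := not_le.mp hcon
  have h11 : (‖α‖ + ‖α‖⁻¹) * s * ‖α‖ ≤ (s ^ 2 + 1) * ‖α‖ :=
    mul_le_mul_of_nonneg_right hq hα0.le
  have h12 : (‖α‖ + ‖α‖⁻¹) * s * ‖α‖ = ‖α‖ ^ 2 * s + s := by
    field_simp
  rw [h12] at h11
  nlinarith [mul_pos (sub_pos.mpr hcon') (sub_pos.mpr (by nlinarith : (1 : ℝ) < ‖α‖ * s))]

/-- `|P_f| √(q^f) ≤ q^f + 1`. -/
theorem norm_satakePow_le936 {a b : ℂ} {q : ℝ} (hq1 : 1 ≤ q) (hb : ‖b‖ = 1)
    (ha : conj a = a * conj b) (hq : ‖a‖ * Real.sqrt q ≤ q + 1) (f : ℕ) :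
    ‖satakePow f a b‖ * Real.sqrt (q ^ f) ≤ q ^ f + 1 := by
  obtain ⟨α, β, rfl, rfl⟩ := exists_roots936 a b
  have hq0 : (0 : ℝ) ≤ q := zero_le_one.trans hq1
  have hs1 : 1 ≤ Real.sqrt q := by
    rw [show (1 : ℝ) = Real.sqrt 1 by simp]
    exact Real.sqrt_le_sqrt hq1
  have hsq : Real.sqrt q ^ 2 = q := Real.sq_sqrt hq0
  have hq' : ‖α + β‖ * Real.sqrt q ≤ Real.sqrt q ^ 2 + 1 := by rw [hsq]; exact hq
  have hα : ‖α‖ ≤ Real.sqrt q := norm_root_le936 hs1 hb ha hq'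
  have hβ : ‖β‖ ≤ Real.sqrt q := by
    refine norm_root_le936 (α := β) (β := α) hs1 ?_ ?_ ?_
    · rw [mul_comm]; exact hb
    · rw [add_comm β α, mul_comm β α]; exact ha
    · rw [add_comm β α]; exact hq'
  have hαβ : ‖α‖ * ‖β‖ = 1 := by rw [← norm_mul]; exact hb
  have hM : Real.sqrt (q ^ f) = Real.sqrt q ^ f := by
    rw [Real.sqrt_eq_iff_mul_self_eq (pow_nonneg hq0 f) (pow_nonneg (Real.sqrt_nonneg q) f),
      ← mul_pow, Real.mul_self_sqrt hq0]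
  have hM2 : q ^ f = (Real.sqrt q ^ f) ^ 2 := by
    rw [← pow_mul, mul_comm, pow_mul, hsq]
  rw [satakePow_roots936, hM, hM2]
  set M := Real.sqrt q ^ f with hMdef
  have hy : ‖α‖ ^ f ≤ M := pow_le_pow_left₀ (norm_nonneg α) hα f
  have hz : ‖β‖ ^ f ≤ M := pow_le_pow_left₀ (norm_nonneg β) hβ f
  have hyz : ‖α‖ ^ f * ‖β‖ ^ f = 1 := by rw [← mul_pow, hαβ, one_pow]
  have hM0 : 0 ≤ M := pow_nonneg (Real.sqrt_nonneg q) f
  have hn : ‖α ^ f + β ^ f‖ ≤ ‖α‖ ^ f + ‖β‖ ^ f := by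
    calc ‖α ^ f + β ^ f‖ ≤ ‖α ^ f‖ + ‖β ^ f‖ := norm_add_le _ _
      _ = ‖α‖ ^ f + ‖β‖ ^ f := by rw [norm_pow, norm_pow]
  calc ‖α ^ f + β ^ f‖ * M ≤ (‖α‖ ^ f + ‖β‖ ^ f) * M := mul_le_mul_of_nonneg_right hn hM0
    _ ≤ M ^ 2 + 1 := by nlinarith [mul_nonneg (sub_nonneg.mpr hy) (sub_nonneg.mpr hz)]

end Fermat.Agent.LT.T7.H936
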