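import Mathlib
import Fermat.Agent.LT.T7.H534.SpecDownSpec
import Fermat.Agent.LT.T7.H936.BCUnitCore

/-!
# Row LT, tower T7, leaf T7.L2.3.4 `SD534.BCUnitC` CLOSED (helper936)

OFF-MAIN.  `bcUnitC936 K K' : SD534.BCUnitC K K'`, VERBATIM against
`LT/T7/H534/SpecDownSpec.lean` (helper534@756e78a11, sha256 `3f1c4f48…`).
The algebra is `conj_satakePow936`, `norm_satakePow_le936` of `BCUnitCore.lean`.
-/

set_option autoImplicit false

open AutomorphicForm IsDedekindDomain NumberField
open scoped ComplexConjugate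

noncomputable section

namespace Fermat.Agent.LT.T7.H936

open Fermat.Agent.LT.T7 Fermat.Agent.LT.T7.SD534

/-- The norm of a prime of a number ring is at least `1`. -/
theorem one_le_absNorm936 {K : Type} [Field K] [NumberField K] (v : HeightOneSpectrum (𝓞 K)) :
    (1 : ℝ) ≤ (Ideal.absNorm v.asIdeal : ℝ) := by
  have h : Ideal.absNorm v.asIdeal ≠ 0 := fun h0 => v.ne_bot (Ideal.absNorm_eq_zero_iff.mp h0)
  exact_mod_cast Nat.one_le_iff_ne_zero.mpr h

/-- **T7.L2.3.4 (the base change of a unitary datum is unitary).** -/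
theorem bcUnitC936 (K K' : Type) [Field K] [NumberField K] [Field K'] [NumberField K']
    [Algebra K K'] : BCUnitC K K' := by
  intro S' 𝔫 c C hover hres hU hBC
  refine ⟨fun w hw => ?_, fun w d hd => ?_⟩
  · obtain ⟨v, f, hvf⟩ := hres w
    have hv : ¬ v.asIdeal ∣ 𝔫 := hover w hw v hvf.1
    obtain ⟨hb, ha, hq⟩ := hU.1 v hv
    obtain ⟨hCa, hCb⟩ := hBC.1 w hw v f hvf
    have hN : (Ideal.absNorm w.asIdeal : ℝ) = (Ideal.absNorm v.asIdeal : ℝ) ^ f := by
      rw [hvf.2]
      push_cast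
      rfl
    refine ⟨?_, ?_, ?_⟩
    · rw [hCb, norm_pow, hb, one_pow]
    · rw [hCa, hCb, map_pow]
      exact conj_satakePow936 hb ha f
    · rw [hCa, hN]
      exact norm_satakePow_le936 (one_le_absNorm936 v) hb ha hq f
  · rw [hBC.2 w d]
    exact hU.2 _ d hd

end Fermat.Agent.LT.T7.H936
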